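import Mathlib
import Fermat.Agent.MUL.S48.W.Interfaces
import Fermat.Agent.MUL.F4.Dict.Level

section MergeWrap_S48_W_ProductDefs -- from S48/W/ProductDefs.lean

set_option autoImplicit false

noncomputable section

namespace Fermat.Agent.S48W

open ModularCurve AlgebraicCurve CongruenceSubgroup
open scoped TensorProduct MatrixGroups ModularForm

/-- **Block P** (the product with `E_{1,ω⁻¹}`). -/
def ProductEigenStatement : Prop :=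
  ∀ (N : ℕ) [NeZero N] (ε : (ZMod N)ˣ →* (integralClosure ℤ ℂ)ˣ)
    (f : CuspForm (Gamma1 N) 1) (c a : ℕ → integralClosure ℤ ℂ),
    (∀ n, (c n : ℂ) = ModularFormClass.qCoeff f n) →
    (∃ n, c n ≠ 0) →
    (∃ K : IntermediateField ℚ ℂ, FiniteDimensional ℚ K ∧ ∀ n, (c n : ℂ) ∈ K) →
    (∀ γ : SL(2, ℤ), γ ∈ Gamma0 N → ∀ d : (ZMod N)ˣ, ((d : ZMod N) = ((γ 1 1 : ℤ) : ZMod N)) →
      ∀ z : UpperHalfPlane, ((f : UpperHalfPlane → ℂ) ∣[(1 : ℤ)] γ) z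
        = (((ε d : (integralClosure ℤ ℂ)ˣ) : integralClosure ℤ ℂ) : ℂ) * f z) →
    (∀ (p : ℕ) (hp : p.Prime) (hpN : Nat.Coprime p N) (n : ℕ),
      c (p * n) + (ε (ZMod.unitOfCoprime p hpN) : integralClosure ℤ ℂ) *
        (if p ∣ n then c (n / p) else 0) = a p * c n) →
    ∀ (ℓ : ℕ), ℓ.Prime → ¬ ℓ ∣ 2 * N →
      ∀ (k : Type) [Field k] [CharP k ℓ] (φ : integralClosure ℤ ℂ →+* k) [NeZero (N * ℓ)],
        ∃ e : ModEigen (N * ℓ) k φ,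
          (∀ p : Nat.Primes, Nat.Coprime (p : ℕ) (N * ℓ) → e.t p = φ (a p)) ∧
          ∀ (p : ℕ) (hpN : Nat.Coprime p N) (hpM : Nat.Coprime p (N * ℓ)),
            ((p : ℕ) : k) * φ (e.χ (ZMod.unitOfCoprime p hpM) : integralClosure ℤ ℂ)
              = φ (ε (ZMod.unitOfCoprime p hpN) : integralClosure ℤ ℂ)

/-- **(W) for `ℓ ≥ ℓ₀`**: `WallStatement` with the extra hypothesis `ℓ₀ ≤ ℓ` (the consumer
`S48.ModLStatement` excludes a finite set of `ℓ`; with `ℓ₀ = 5` all levels `N ℓ` are `≥ 5`, where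
`Γ₁(N ℓ)` has no elliptic points and does not contain `-1`). -/
def WallStatementFrom (ℓ₀ : ℕ) : Prop :=
  ∀ (N : ℕ) [NeZero N] (ε : (ZMod N)ˣ →* (integralClosure ℤ ℂ)ˣ)
    (f : CuspForm (Gamma1 N) 1) (c a : ℕ → integralClosure ℤ ℂ),
    (∀ n, (c n : ℂ) = ModularFormClass.qCoeff f n) →
    (∃ n, c n ≠ 0) →
    (∃ K : IntermediateField ℚ ℂ, FiniteDimensional ℚ K ∧ ∀ n, (c n : ℂ) ∈ K) →
    (∀ γ : SL(2, ℤ), γ ∈ Gamma0 N → ∀ d : (ZMod N)ˣ, ((d : ZMod N) = ((γ 1 1 : ℤ) : ZMod N)) →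
      ∀ z : UpperHalfPlane, ((f : UpperHalfPlane → ℂ) ∣[(1 : ℤ)] γ) z
        = (((ε d : (integralClosure ℤ ℂ)ˣ) : integralClosure ℤ ℂ) : ℂ) * f z) →
    (∀ (p : ℕ) (hp : p.Prime) (hpN : Nat.Coprime p N) (n : ℕ),
      c (p * n) + (ε (ZMod.unitOfCoprime p hpN) : integralClosure ℤ ℂ) *
        (if p ∣ n then c (n / p) else 0) = a p * c n) →
    ∀ (ℓ : ℕ), ℓ.Prime → ¬ ℓ ∣ 2 * N → ℓ₀ ≤ ℓ →
      ∀ (k : Type) [Field k] [CharP k ℓ] (φ : integralClosure ℤ ℂ →+* k),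
        ∃ ρ : ResidualGaloisRep k,
          (∀ p : ℕ, p.Prime → ¬ p ∣ N * ℓ → ρ.IsUnramifiedAt p) ∧
          ∀ (p : ℕ) (hp : p.Prime) (hpN : Nat.Coprime p N), p ≠ ℓ →
            ∀ A : ValuationSubring (AlgebraicClosure ℚ), A.LiesOverPrime p →
              ∀ σ : (AlgebraicClosure ℚ ≃ₐ[ℚ] AlgebraicClosure ℚ), A.IsFrobeniusAt σ p →
                LinearMap.charpoly (ρ.ρ σ) = Polynomial.X ^ 2 - Polynomial.C (φ (a p)) * Polynomial.X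
                  + Polynomial.C (φ (ε (ZMod.unitOfCoprime p hpN) : integralClosure ℤ ℂ))

end Fermat.Agent.S48W
end
end MergeWrap_S48_W_ProductDefs
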